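/-
S36 / cell REG / leaf HASSE — part 1 (helper968): integral structure of level-one forms.

`exists_intPoly`: if `G ∈ ℤ[[q]]` is (after `ℤ → ℂ`) a `ℂ`-combination of the monomials
`E₄^x E₆^y` of weight `12 a + 4 δ + 6 ε` (`δ ≤ 2`, `ε ≤ 1`) — e.g. the `q`-expansion of any
level-one modular form of that weight — then in `ℤ((q))`
  `G = E₄^δ · E₆^ε · Δ^a · F(j)`   with `F ∈ ℤ[X]`.
Together with `E₄³ = jΔ` and `E₆² = (j - 1728)Δ` (in `ℤ((q))`, hence over every ring).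
-/
import Mathlib
import Fermat.Agent.S23.LevelOne
import Fermat.Agent.S28.Theta.Main
import Fermat.Agent.S28.H685.JIntegral

set_option autoImplicit false

open ModularForm ModularFormClass EisensteinSeries UpperHalfPlane MatrixGroups
open ModularCurve HahnSeries
open Fermat.Agent.S23.LevelOne Fermat.Agent.S28

noncomputable section

namespace Fermat.Agent.S36.Reg.H968

/-- `E₄` as an integral Laurent series. -/
def aZ : LaurentSeries ℤ := HahnSeries.ofPowerSeries ℤ ℤ qE4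

/-- `E₆` as an integral Laurent series. -/
def bZ : LaurentSeries ℤ := HahnSeries.ofPowerSeries ℤ ℤ qE6

/-- `E₄⁻¹` as an integral Laurent series. -/
def aZinv : LaurentSeries ℤ := HahnSeries.ofPowerSeries ℤ ℤ (qE4.invOfUnit 1)

/-- `E₆⁻¹` as an integral Laurent series. -/
def bZinv : LaurentSeries ℤ := HahnSeries.ofPowerSeries ℤ ℤ (qE6.invOfUnit 1)

theorem aZ_mul_aZinv : aZ * aZinv = 1 := by
  rw [aZ, aZinv, ← map_mul, PowerSeries.mul_invOfUnit _ _ (by rw [constantCoeff_qE4]; rfl),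
    map_one]

theorem bZ_mul_bZinv : bZ * bZinv = 1 := by
  rw [bZ, bZinv, ← map_mul, PowerSeries.mul_invOfUnit _ _ (by rw [constantCoeff_qE6]; rfl),
    map_one]

theorem coeffMap_aZ : coeffMap (Int.castRingHom ℂ) aZ = th327_a := by
  rw [aZ, coeffMap_ofPowerSeries, th327_a, qExpansion_E4]

theorem coeffMap_bZ : coeffMap (Int.castRingHom ℂ) bZ = th327_b := by
  rw [bZ, coeffMap_ofPowerSeries, th327_b, qExpansion_E6]

/-- `j Δ = E₄³` in `ℤ((q))`. -/
theorem j_mul_delta_Z : jqModC ℤ * deltaL ℤ = aZ ^ 3 := by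
  apply th327_coeffMap_intCast_injective
  rw [map_mul, coeffMap_jqModC, h88_coeffMap_deltaL, map_pow, coeffMap_aZ]
  exact th327_j_mul_delta

/-- `E₄³ - E₆² = 1728 Δ` in `ℤ((q))`. -/
theorem cube_sub_sq_Z : aZ ^ 3 - bZ ^ 2 = 1728 * deltaL ℤ := by
  apply th327_coeffMap_intCast_injective
  rw [map_sub, map_pow, map_pow, coeffMap_aZ, coeffMap_bZ, map_mul, map_ofNat,
    h88_coeffMap_deltaL]
  exact th327_cube_sub_sq_laurent

/-- `E₆² = (j - 1728) Δ` in `ℤ((q))`. -/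
theorem sq_eq_Z : bZ ^ 2 = (jqModC ℤ - 1728) * deltaL ℤ := by
  have h1 := cube_sub_sq_Z
  have h2 := j_mul_delta_Z
  linear_combination -h1 - h2

theorem ofPowerSeries_qMono_C (x y : ℕ) :
    HahnSeries.ofPowerSeries ℤ ℂ ((qMono x y).map (Int.castRingHom ℂ)) =
      th327_a ^ x * th327_b ^ y := by
  rw [qMono, map_mul, map_pow, map_pow, map_mul, map_pow, map_pow, th327_a, th327_b,
    qExpansion_E4, qExpansion_E6]

/-- Step 1 (over `ℂ`): every combination of monomials of weight `12a + 4δ + 6ε` is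
`E₄^δ E₆^ε Δ^a F(j)`. -/
theorem exists_poly_of_mem_span (δ ε a : ℕ) (hδ : δ ≤ 2) (hε : ε ≤ 1) (P : PowerSeries ℂ)
    (hP : P ∈ Submodule.span ℂ (monoSet (12 * (a : ℤ) + 4 * (δ : ℤ) + 6 * (ε : ℤ)))) :
    ∃ F : Polynomial ℂ, HahnSeries.ofPowerSeries ℤ ℂ P =
      th327_a ^ δ * th327_b ^ ε * deltaL ℂ ^ a * Polynomial.aeval (jqModC ℂ) F := by
  induction hP using Submodule.span_induction with
  | mem x hx =>
    obtain ⟨x', y', hxy, rfl⟩ := hx
    obtain ⟨u, v, hu, hv, huv⟩ : ∃ u v : ℕ, x' = δ + 3 * u ∧ y' = ε + 2 * v ∧ u + v = a := by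
      refine ⟨(x' - δ) / 3, (y' - ε) / 2, ?_, ?_, ?_⟩ <;> omega
    subst hu hv huv
    refine ⟨Polynomial.X ^ u * (Polynomial.X - Polynomial.C 1728) ^ v, ?_⟩
    have hA3 : th327_a ^ 3 = jqModC ℂ * deltaL ℂ := th327_j_mul_delta.symm
    have hB2 : th327_b ^ 2 = (jqModC ℂ - 1728) * deltaL ℂ := by
      have h1 := th327_cube_sub_sq_laurent
      linear_combination hA3 - h1
    have hav : Polynomial.aeval (jqModC ℂ)
        (Polynomial.X ^ u * (Polynomial.X - Polynomial.C (1728 : ℂ)) ^ v) =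
        jqModC ℂ ^ u * (jqModC ℂ - 1728) ^ v := by
      rw [map_mul, map_pow, map_pow, map_sub, Polynomial.aeval_X, Polynomial.aeval_C,
        map_ofNat]
    rw [ofPowerSeries_qMono_C, hav, _root_.pow_add, _root_.pow_add, pow_mul, pow_mul, hA3, hB2,
      mul_pow, mul_pow, _root_.pow_add]
    ring
  | zero => exact ⟨0, by simp⟩
  | add x y _ _ hx hy =>
    obtain ⟨F, hF⟩ := hx
    obtain ⟨F', hF'⟩ := hy
    exact ⟨F + F', by rw [map_add, hF, hF', map_add, mul_add]⟩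
  | smul c x _ hx =>
    obtain ⟨F, hF⟩ := hx
    refine ⟨Polynomial.C c * F, ?_⟩
    have h1 : c • x = PowerSeries.C c * x := by
      ext n; simp
    have h2 : (algebraMap ℂ (LaurentSeries ℂ)) c =
        HahnSeries.ofPowerSeries ℤ ℂ (PowerSeries.C c) := rfl
    rw [h1, map_mul, hF, map_mul, Polynomial.aeval_C, h2]
    ring

/-- Step 2: integrality of the polynomial. -/
theorem exists_intPoly (δ ε a : ℕ) (hδ : δ ≤ 2) (hε : ε ≤ 1) (G : PowerSeries ℤ)
    (hG : G.map (Int.castRingHom ℂ) ∈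
      Submodule.span ℂ (monoSet (12 * (a : ℤ) + 4 * (δ : ℤ) + 6 * (ε : ℤ)))) :
    ∃ F : Polynomial ℤ, HahnSeries.ofPowerSeries ℤ ℤ G =
      aZ ^ δ * bZ ^ ε * deltaL ℤ ^ a * Polynomial.aeval (jqModC ℤ) F := by
  obtain ⟨F, hF⟩ := exists_poly_of_mem_span δ ε a hδ hε _ hG
  set φ := coeffMap (Int.castRingHom ℂ) with hφ
  -- the integral Laurent series `H` with `φ H = F(j)`
  set H : LaurentSeries ℤ :=
    HahnSeries.ofPowerSeries ℤ ℤ G * aZinv ^ δ * bZinv ^ ε * deltaInvL ℤ ^ a with hH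
  have ha : th327_a * φ aZinv = 1 := by
    rw [← coeffMap_aZ, ← map_mul, aZ_mul_aZinv, map_one]
  have hb : th327_b * φ bZinv = 1 := by
    rw [← coeffMap_bZ, ← map_mul, bZ_mul_bZinv, map_one]
  have hd : deltaL ℂ * φ (deltaInvL ℤ) = 1 := by
    rw [hφ, h88_coeffMap_deltaInvL, h88_deltaL_mul_deltaInvL]
  have hHF : φ H = Polynomial.aeval (jqModC ℂ) F := by
    rw [hH, map_mul, map_mul, map_mul, map_pow, map_pow, map_pow, hφ, coeffMap_ofPowerSeries,
      hF, ← hφ]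
    calc th327_a ^ δ * th327_b ^ ε * deltaL ℂ ^ a * (Polynomial.aeval (jqModC ℂ)) F *
          φ aZinv ^ δ * φ bZinv ^ ε * φ (deltaInvL ℤ) ^ a
        = (th327_a * φ aZinv) ^ δ * (th327_b * φ bZinv) ^ ε *
            (deltaL ℂ * φ (deltaInvL ℤ)) ^ a * (Polynomial.aeval (jqModC ℂ)) F := by ring
      _ = (Polynomial.aeval (jqModC ℂ)) F := by rw [ha, hb, hd]; simp
  have hcoef : ∀ i, F.coeff i ∈ (Int.castRingHom ℂ).range := by
    refine H685.coeff_mem_of_aeval_jqModC (Int.castRingHom ℂ).range F.natDegree F le_rfl ?_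
    intro k
    rw [← hHF, hφ, coeffMap_coeff]
    exact ⟨_, rfl⟩
  obtain ⟨F', hF'⟩ : ∃ F' : Polynomial ℤ, F'.map (Int.castRingHom ℂ) = F := by
    have : F ∈ Polynomial.lifts (Int.castRingHom ℂ) := by
      rw [Polynomial.lifts_iff_coeff_lifts]
      intro n
      obtain ⟨m, hm⟩ := hcoef n
      exact ⟨m, hm⟩
    exact this
  refine ⟨F', ?_⟩
  apply th327_coeffMap_intCast_injective
  have hav : φ (Polynomial.aeval (jqModC ℤ) F') = Polynomial.aeval (jqModC ℂ) F := by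
    rw [hφ, Polynomial.map_aeval_eq_aeval_map (φ := Int.castRingHom ℂ)
      (RingHom.ext_int _ _), coeffMap_jqModC, hF']
  rw [← hφ, map_mul, map_mul, map_mul, map_pow, map_pow, map_pow, hav, hφ, coeffMap_aZ,
    coeffMap_bZ, h88_coeffMap_deltaL, coeffMap_ofPowerSeries, hF]

/-- Level-one form of weight `12a + 4δ + 6ε` with integral `q`-expansion `G`. -/
theorem exists_intPoly_of_form (δ ε a : ℕ) (hδ : δ ≤ 2) (hε : ε ≤ 1) {k : ℤ}
    (hk : k = 12 * (a : ℤ) + 4 * (δ : ℤ) + 6 * (ε : ℤ)) (f : ModularForm 𝒮ℒ k) (c : ℂ)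
    (G : PowerSeries ℤ) (hG : G.map (Int.castRingHom ℂ) = c • qExpansion 1 f) :
    ∃ F : Polynomial ℤ, HahnSeries.ofPowerSeries ℤ ℤ G =
      aZ ^ δ * bZ ^ ε * deltaL ℤ ^ a * Polynomial.aeval (jqModC ℤ) F := by
  refine exists_intPoly δ ε a hδ hε G ?_
  rw [hG]
  have h := levelOne_qExpansion_mem_span k f
  have hm : monoSet k = monoSet (12 * (a : ℤ) + 4 * (δ : ℤ) + 6 * (ε : ℤ)) := by rw [hk]
  rw [hm] at h
  exact Submodule.smul_mem _ _ h

end Fermat.Agent.S36.Reg.H968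

end
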