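/-
S36 / cell REG / leaf HASSE (helper968): `hasse : HasseStatement q` for every prime `q ≥ 5`.

`E_{q-1} ≡ 1 mod q` (von Staudt–Clausen: `q ∣ den B_{q-1}`), and
`num(B_{q-1}) · E_{q-1} = E₄^δ E₆^ε Δ^a F(j)` with `F ∈ ℤ[X]` (`Struct.lean`); reduce mod `q`
and take 12-th powers.
-/
import Mathlib
import Fermat.Agent.S36.Reg.Spec
import Fermat.Agent.S36.Reg.H968.Struct

set_option autoImplicit false

open ModularForm ModularFormClass EisensteinSeries UpperHalfPlane MatrixGroups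
open ModularCurve HahnSeries
open Fermat.Agent.S23.LevelOne Fermat.Agent.S28

noncomputable section

namespace Fermat.Agent.S36.Reg.H968

/-! ### von Staudt–Clausen at `q` -/

/-- The denominator of `1 / p` is `p`. -/
theorem den_one_div_natCast {p : ℕ} (hp : p ≠ 0) : ((1 : ℚ) / (p : ℚ)).den = p := by
  rw [one_div]
  have := Rat.inv_natCast_den p
  simp [this, hp]

/-- **von Staudt–Clausen at `q`**: an odd prime `q` divides the denominator of `B_{q-1}`. -/
theorem prime_dvd_den_bernoulli (q : ℕ) (hq : q.Prime) (h3 : 3 ≤ q) :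
    q ∣ (bernoulli (q - 1)).den := by
  classical
  have hodd : ¬ 2 ∣ q := by
    intro h
    have := (Nat.prime_dvd_prime_iff_eq Nat.prime_two hq).1 h
    omega
  obtain ⟨k, hk⟩ : ∃ k, q - 1 = 2 * k := ⟨(q - 1) / 2, by omega⟩
  obtain ⟨z, hz⟩ := Bernoulli.vonStaudt_clausen k
  rw [← hk] at hz
  set S := (Finset.range (q - 1 + 2)).filter (fun p => p.Prime ∧ (p - 1) ∣ (q - 1)) with hS
  have hqS : q ∈ S := by
    rw [hS, Finset.mem_filter, Finset.mem_range]
    exact ⟨by omega, hq, dvd_rfl⟩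
  set x : ℚ := ∑ p ∈ S.erase q, (1 : ℚ) / p with hx
  have hsum : ∑ p ∈ S, (1 : ℚ) / p = 1 / (q : ℚ) + x := by
    rw [hx, ← Finset.add_sum_erase S _ hqS]
  -- `q` does not divide the denominator of `x`
  have hxden : ¬ q ∣ x.den := by
    intro hdvd
    have h1 : x.den ∣ ∏ p ∈ S.erase q, ((1 : ℚ) / p).den :=
      Finset.Rat.den_sum_dvd_prod_den _ _
    have h2 := dvd_trans hdvd h1
    obtain ⟨p, hp, hqp⟩ := (Prime.dvd_finsetProd_iff hq.prime _).1 h2
    rw [Finset.mem_erase, hS, Finset.mem_filter] at hp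
    obtain ⟨hne, -, hpp, -⟩ := hp
    rw [den_one_div_natCast hpp.ne_zero] at hqp
    exact hne ((Nat.prime_dvd_prime_iff_eq hq hpp).1 hqp).symm
  set B := bernoulli (q - 1) with hB
  -- `B + 1/q = z - x`
  have hBq : B + 1 / (q : ℚ) = (z : ℚ) + (-x) := by
    have := hz
    rw [hsum] at this
    linarith
  have hden1 : ¬ q ∣ (B + 1 / (q : ℚ)).den := by
    intro hdvd
    rw [hBq] at hdvd
    have h1 : ((z : ℚ) + (-x)).den ∣ (z : ℚ).den * (-x).den := Rat.add_den_dvd _ _
    rw [Rat.den_intCast, one_mul, Rat.neg_den] at h1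
    exact hxden (dvd_trans hdvd h1)
  -- `1/q = (B + 1/q) - B`
  have hq1 : ((1 : ℚ) / (q : ℚ)).den ∣ (B + 1 / (q : ℚ)).den * (-B).den := by
    have h1 : (1 : ℚ) / (q : ℚ) = (B + 1 / (q : ℚ)) + (-B) := by ring
    conv_lhs => rw [h1]
    exact Rat.add_den_dvd _ _
  rw [den_one_div_natCast hq.ne_zero, Rat.neg_den] at hq1
  rcases (Nat.Prime.dvd_mul hq).1 hq1 with h | h
  · exact absurd h hden1
  · exact h

/-! ### The integral `q`-expansion of `num(B_{q-1}) · E_{q-1}` -/

/-- `num(B_{q-1}) · E_{q-1}` as an integral power series. -/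
def eisNum (q : ℕ) : PowerSeries ℤ :=
  PowerSeries.mk fun m =>
    if m = 0 then (bernoulli (q - 1)).num
    else -(2 * ((q - 1 : ℕ) : ℤ) * ((bernoulli (q - 1)).den : ℤ) *
      ((ArithmeticFunction.sigma (q - 1 - 1) m : ℕ) : ℤ))

theorem bernoulli_num_ne_zero (q : ℕ) (hq : q.Prime) (h3 : 3 ≤ q) :
    (bernoulli (q - 1)).num ≠ 0 := by
  intro h
  have h0 : bernoulli (q - 1) = 0 := Rat.num_eq_zero.1 h
  have h1 := prime_dvd_den_bernoulli q hq h3
  rw [h0, Rat.den_zero] at h1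
  have := Nat.le_of_dvd one_pos h1
  omega

theorem not_dvd_bernoulli_num (q : ℕ) (hq : q.Prime) (h3 : 3 ≤ q) :
    ¬ (q : ℤ) ∣ (bernoulli (q - 1)).num := by
  intro h
  have h1 := prime_dvd_den_bernoulli q hq h3
  have h2 : q ∣ (bernoulli (q - 1)).num.natAbs := Int.natCast_dvd.1 h
  have h3' := Nat.dvd_gcd h2 h1
  rw [(bernoulli (q - 1)).reduced] at h3'
  have := Nat.le_of_dvd one_pos h3'
  omega

theorem eisNum_map_C (q : ℕ) (hq : q.Prime) (h5 : 5 ≤ q) (hk3 : 3 ≤ q - 1)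
    (hev : Even (q - 1)) :
    (eisNum q).map (Int.castRingHom ℂ) =
      ((bernoulli (q - 1)).num : ℂ) • qExpansion 1 (E hk3) := by
  ext m
  rw [PowerSeries.coeff_map, PowerSeries.coeff_smul, E_qExpansion_coeff hk3 hev m, eisNum,
    PowerSeries.coeff_mk]
  by_cases hm : m = 0
  · simp [hm]
  · rw [if_neg hm, if_neg hm]
    have hn : ((bernoulli (q - 1)).num : ℂ) ≠ 0 := by
      exact_mod_cast bernoulli_num_ne_zero q hq (by omega)
    have hd : ((bernoulli (q - 1)).den : ℂ) ≠ 0 := by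
      exact_mod_cast (bernoulli (q - 1)).den_ne_zero
    have hB : ((bernoulli (q - 1) : ℚ) : ℂ) =
        ((bernoulli (q - 1)).num : ℂ) / ((bernoulli (q - 1)).den : ℂ) := by
      rw [Rat.cast_def]
    rw [hB]
    simp only [eq_intCast, Int.cast_neg, Int.cast_mul, Int.cast_ofNat, Int.cast_natCast,
      smul_eq_mul]
    field_simp

theorem eisNum_map_zmod (q : ℕ) (hq : q.Prime) (h3 : 3 ≤ q) :
    (eisNum q).map (Int.castRingHom (ZMod q)) =
      PowerSeries.C (((bernoulli (q - 1)).num : ℤ) : ZMod q) := by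
  ext m
  rw [PowerSeries.coeff_map, eisNum, PowerSeries.coeff_mk, PowerSeries.coeff_C]
  by_cases hm : m = 0
  · simp [hm]
  · rw [if_neg hm, if_neg hm]
    have hd : (((bernoulli (q - 1)).den : ℕ) : ZMod q) = 0 :=
      (ZMod.natCast_eq_zero_iff _ _).2 (prime_dvd_den_bernoulli q hq h3)
    simp [hd]

/-! ### The Hasse identity -/

theorem hasse_weight (q : ℕ) (hq : q.Prime) (h5 : 5 ≤ q) :
    q - 1 = 12 * ((q - 1) / 12) + 4 * hasseDelta q + 6 * hasseEps q := by
  have h2 : ¬ 2 ∣ q := by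
    intro h
    have := (Nat.prime_dvd_prime_iff_eq Nat.prime_two hq).1 h
    omega
  have h3 : ¬ 3 ∣ q := by
    intro h
    have := (Nat.prime_dvd_prime_iff_eq Nat.prime_three hq).1 h
    omega
  unfold hasseDelta hasseEps
  split_ifs <;> omega

theorem hasseDelta_le (q : ℕ) : hasseDelta q ≤ 2 := by
  unfold hasseDelta; split_ifs <;> omega

theorem hasseEps_le (q : ℕ) : hasseEps q ≤ 1 := by
  unfold hasseEps; split_ifs <;> omega

/-- **Leaf HASSE.** -/
theorem hasse (q : ℕ) [NeZero q] (hq : q.Prime) (h5 : 5 ≤ q) : HasseStatement q := by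
  have : Fact q.Prime := ⟨hq⟩
  have hw := hasse_weight q hq h5
  set δ := hasseDelta q with hδ
  set ε := hasseEps q with hε
  set a := (q - 1) / 12 with ha
  have hk3 : 3 ≤ q - 1 := by omega
  have hev : Even (q - 1) := by
    have h2 : ¬ 2 ∣ q := by
      intro h
      have := (Nat.prime_dvd_prime_iff_eq Nat.prime_two hq).1 h
      omega
    exact ⟨(q - 1) / 2, by omega⟩
  have hkZ : ((q - 1 : ℕ) : ℤ) = 12 * (a : ℤ) + 4 * (δ : ℤ) + 6 * (ε : ℤ) := by
    exact_mod_cast hw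
  obtain ⟨F, hF⟩ := exists_intPoly_of_form δ ε a (hasseDelta_le q) (hasseEps_le q) hkZ
    (E hk3) _ (eisNum q) (eisNum_map_C q hq h5 hk3 hev)
  set ψ := coeffMap (Int.castRingHom (ZMod q)) with hψ
  set n : ZMod q := (((bernoulli (q - 1)).num : ℤ) : ZMod q) with hn
  have hn0 : n ≠ 0 := by
    rw [hn, Ne, ZMod.intCast_zmod_eq_zero_iff_dvd]
    exact not_dvd_bernoulli_num q hq (by omega)
  set A := ψ aZ with hA
  set B := ψ bZ with hB
  set D := deltaL (ZMod q) with hD
  set Dinv := deltaInvL (ZMod q) with hDinv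
  set J := jqModC (ZMod q) with hJ
  set Φ := Polynomial.aeval J (F.map (Int.castRingHom (ZMod q))) with hΦ
  have hDD : D * Dinv = 1 := h88_deltaL_mul_deltaInvL (ZMod q)
  have hA3 : A ^ 3 = J * D := by
    have h := congrArg ψ j_mul_delta_Z
    rw [map_mul, map_pow, hψ, coeffMap_jqModC, h88_coeffMap_deltaL] at h
    exact h.symm
  have hB2 : B ^ 2 = (J - 1728) * D := by
    have h := congrArg ψ sq_eq_Z
    rw [map_mul, map_pow, map_sub, map_ofNat, hψ, coeffMap_jqModC, h88_coeffMap_deltaL] at h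
    exact h
  have hav : ψ (Polynomial.aeval (jqModC ℤ) F) = Φ := by
    rw [hψ, Polynomial.map_aeval_eq_aeval_map (φ := Int.castRingHom (ZMod q))
      (RingHom.ext_int _ _), coeffMap_jqModC]
  have h0 : HahnSeries.ofPowerSeries ℤ (ZMod q) (PowerSeries.C n) = A ^ δ * B ^ ε * D ^ a * Φ := by
    have h := congrArg ψ hF
    rw [map_mul, map_mul, map_mul, map_pow, map_pow, map_pow, hav] at h
    have h' : ψ (HahnSeries.ofPowerSeries ℤ ℤ (eisNum q)) =
        HahnSeries.ofPowerSeries ℤ (ZMod q) (PowerSeries.C n) := by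
      rw [hψ, coeffMap_ofPowerSeries, eisNum_map_zmod q hq (by omega)]
    have h'' : ψ (deltaL ℤ) = D := h88_coeffMap_deltaL _
    rw [h', h''] at h
    exact h
  set c := HahnSeries.ofPowerSeries ℤ (ZMod q) (PowerSeries.C n) with hc
  set cinv := HahnSeries.ofPowerSeries ℤ (ZMod q) (PowerSeries.C n⁻¹) with hcinv
  have hcc : c * cinv = 1 := by
    rw [hc, hcinv, ← map_mul, ← map_mul, mul_inv_cancel₀ hn0, map_one, map_one]
  have e1 : c ^ 12 = J ^ (4 * δ) * (J - 1728) ^ (6 * ε) * D ^ (q - 1) * Φ ^ 12 := by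
    rw [h0, hw]
    calc (A ^ δ * B ^ ε * D ^ a * Φ) ^ 12
        = (A ^ 3) ^ (4 * δ) * (B ^ 2) ^ (6 * ε) * D ^ (12 * a) * Φ ^ 12 := by ring
      _ = (J * D) ^ (4 * δ) * ((J - 1728) * D) ^ (6 * ε) * D ^ (12 * a) * Φ ^ 12 := by
          rw [hA3, hB2]
      _ = _ := by
          rw [mul_pow, mul_pow]
          generalize J - 1728 = X
          ring
  refine ⟨Polynomial.C n⁻¹ * F.map (Int.castRingHom (ZMod q)), ?_⟩
  have hΨ : Polynomial.aeval J (Polynomial.C n⁻¹ * F.map (Int.castRingHom (ZMod q))) =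
      cinv * Φ := by
    rw [map_mul, Polynomial.aeval_C]
    rfl
  rw [hΨ]
  calc Dinv ^ (q - 1) = Dinv ^ (q - 1) * (c * cinv) ^ 12 := by rw [hcc, one_pow, mul_one]
    _ = Dinv ^ (q - 1) * c ^ 12 * cinv ^ 12 := by ring
    _ = (D * Dinv) ^ (q - 1) * (J ^ (4 * δ) * (J - 1728) ^ (6 * ε) * (cinv * Φ) ^ 12) := by
        rw [e1]; ring
    _ = J ^ (4 * δ) * (J - 1728) ^ (6 * ε) * (cinv * Φ) ^ 12 := by
        rw [hDD, one_pow, one_mul]

/-- `coeffMap` commutes with `aeval` (coefficient ring hom `φ : R →+* S`). -/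
theorem coeffMap_aeval {R S : Type*} [CommRing R] [CommRing S] (φ : R →+* S)
    (y : LaurentSeries R) (f : Polynomial R) :
    coeffMap φ (Polynomial.aeval y f) = Polynomial.aeval (coeffMap φ y) (f.map φ) := by
  refine Polynomial.map_aeval_eq_aeval_map (φ := φ) (ψ := coeffMap φ) ?_ f y
  ext r : 1
  show algebraMap S (LaurentSeries S) (φ r) = coeffMap φ (algebraMap R (LaurentSeries R) r)
  rw [HahnSeries.algebraMap_apply', HahnSeries.algebraMap_apply', coeffMap_ofPowerSeries,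
    PowerSeries.algebraMap_apply, PowerSeries.algebraMap_apply, PowerSeries.map_C]
  rfl

/-- **Leaf HASSE**, in the consumed form (any field of characteristic `q`). -/
theorem hasse_field (q : ℕ) [NeZero q] (hq : q.Prime) (h5 : 5 ≤ q) (k : Type) [Field k]
    [CharP k q] : HasseStatementField q k := by
  obtain ⟨f, hf⟩ := hasse q hq h5
  set φ : ZMod q →+* k := ZMod.castHom (dvd_refl q) k with hφ
  refine ⟨f.map φ, ?_⟩
  have h := congrArg (coeffMap φ) hf
  rw [map_pow, map_mul, map_mul, map_pow, map_pow, map_pow, map_sub, map_ofNat,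
    coeffMap_aeval, coeffMap_jqModC, h88_coeffMap_deltaInvL] at h
  exact h

end Fermat.Agent.S36.Reg.H968

end
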